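import Fermat.Agent.LT.T7.B981.BaseSpec
import Fermat.Agent.LT.T7.H593.DblSys
import Fermat.Agent.LT.T7.H340.IwKit

/-!
# Row LT, tower T7, leaf T7.L2.1.H2a.2 `B981.SysC981` (helper368, registry row 2687)

OFF-MAIN.  `sysC368 K K' : B981.SysC981 K K'` VERBATIM vs `LT/T7/B981/BaseSpec.lean`
(helper981, sha256 3ab0d96c), UNCONDITIONAL.  ASSETS ONLY (byte-identical copies):

* `Hg` : `exists_isDblCosetSystem593` (helper593, `T7/H593/DblSys.lean`), the base level is not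
  zero (`IsL2Base.base_level`: it is the extension of a nonzero ideal of `K`);
* `H'`, `H` : `exists_iwCosetSystem340` (helper340, `T7/H340/IwKit.lean`);
* `z'`, `z` : `exists_scalarUniformizer129` (helper129, `H129/HeckeExists.lean`).

The hypothesis `B.IsBad g` is not used.
-/

set_option autoImplicit false

open AutomorphicForm IsDedekindDomain NumberField

noncomputable section

namespace Fermat.Agent.LT.T7.B981.H368

open Fermat.Agent.LT.H556 Fermat.Agent.LT.H556.A0 Fermat.Agent.LT.T7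
open Fermat.Agent.LT.T7.H305 Fermat.Agent.LT.T7.H893

variable (K K' : Type) [Field K] [NumberField K] [Field K'] [NumberField K'] [Algebra K K']

/-- The extension to `K'` of a nonzero ideal of `K` is not zero. -/
theorem upI_ne_bot368 {𝔫 : Ideal (𝓞 K)} (h : 𝔫 ≠ ⊥) : upI (K' := K') 𝔫 ≠ ⊥ := by
  intro h0
  exact h ((Ideal.map_eq_bot_iff_of_injective
    (FaithfulSMul.algebraMap_injective (𝓞 K) (𝓞 K'))).1 h0)

/-- **LEAF T7.L2.1.H2a.2 = SYSTEMS** of the cut of helper981, VERBATIM, UNCONDITIONAL. -/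
theorem sysC368 : B981.SysC981 K K' := by
  intro ℓ Φ B hB g _
  obtain ⟨𝔫₀, h0, hN, -, -⟩ := hB.base_level
  have hN0 : B.𝔑₀ ≠ ⊥ := by
    rw [hN]
    exact upI_ne_bot368 K K' h0
  obtain ⟨Hg, hHg⟩ := Fermat.Agent.LT.T7.H593DS.exists_isDblCosetSystem593 B.𝔑₀ hN0 g
  obtain ⟨H', hH'⟩ := Fermat.Agent.LT.T7.H340.exists_iwCosetSystem340 (B.o 0)
  obtain ⟨z', hz'⟩ := Fermat.Agent.LT.H129.exists_scalarUniformizer129 (B.o 0)
  obtain ⟨H, hH⟩ := Fermat.Agent.LT.T7.H340.exists_iwCosetSystem340 B.u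
  obtain ⟨z, hz⟩ := Fermat.Agent.LT.H129.exists_scalarUniformizer129 B.u
  exact ⟨Hg, H', z', H, z, ⟨hHg, hH', hz', hH, hz⟩⟩

end Fermat.Agent.LT.T7.B981.H368

end
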